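import Mathlib
import Fermat.Prelude.Def_AlgebraicCurve_Correspondence
import Fermat.Agent.RR.Euler
import Fermat.Agent.FF.Approx

/-! Additive maps of divisors with finite rows are determined by their values on principal
divisors (helper87). -/

set_option autoImplicit false
set_option linter.style.haveILetI false

noncomputable section

open AlgebraicCurve Fermat.Agent.RR WithZero

namespace Fermat.Agent.HeckeComm

section Rows

variable {K F K' F' K'' F'' : Type*} [Field K] [Field F] [Field F'] [Field F''] [Algebra K F]
  [Field K'] [Field K''] [Algebra K' F'] [Algebra K'' F'']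

/-- `T` has finite rows: only finitely many `R` have `Q` in the support of `T R`. -/
def FiniteRows (T : Divisor K F →+ Divisor K' F') : Prop :=
  ∀ Q : Place K' F', {R : Place K F | T (Finsupp.single R 1) Q ≠ 0}.Finite

theorem map_single' (T : Divisor K F →+ Divisor K' F') (R : Place K F) (n : ℤ) :
    T (Finsupp.single R n) = n • T (Finsupp.single R 1) := by
  rw [← map_zsmul, Finsupp.smul_single, smul_eq_mul, mul_one]

theorem map_eq_sum (T : Divisor K F →+ Divisor K' F') (D : Divisor K F) (Q : Place K' F') :
    T D Q = ∑ R ∈ D.support, D R * T (Finsupp.single R 1) Q := by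
  conv_lhs => rw [← Finsupp.sum_single D]
  rw [Finsupp.sum, map_sum, Finset.sum_apply']
  refine Finset.sum_congr rfl fun R _ => ?_
  rw [map_single', Finsupp.smul_apply, smul_eq_mul]

theorem FiniteRows.sub {T S : Divisor K F →+ Divisor K' F'} (hT : FiniteRows T)
    (hS : FiniteRows S) : FiniteRows (T - S) := by
  intro Q
  refine ((hT Q).union (hS Q)).subset fun R hR => ?_
  by_contra h
  rw [Set.mem_union, not_or, Set.mem_ofPred_eq, Set.mem_ofPred_eq, not_not, not_not] at h
  apply hR
  rw [AddMonoidHom.sub_apply, Finsupp.sub_apply, h.1, h.2, sub_zero]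

theorem FiniteRows.comp {T : Divisor K' F' →+ Divisor K'' F''} {S : Divisor K F →+ Divisor K' F'}
    (hT : FiniteRows T) (hS : FiniteRows S) : FiniteRows (T.comp S) := by
  intro Q
  refine ((hT Q).biUnion fun P _ => hS P).subset fun R hR => ?_
  rw [Set.mem_ofPred_eq, AddMonoidHom.comp_apply, map_eq_sum] at hR
  obtain ⟨P, _, hP⟩ := Finset.exists_ne_zero_of_sum_ne_zero hR
  rw [Set.mem_iUnion₂]
  exact ⟨P, right_ne_zero_of_mul hP, left_ne_zero_of_mul hP⟩

/-- An element with prescribed order `1` at `P` and `0` at finitely many other places. -/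
theorem exists_ord_eq (P : Place K F) (s : Finset (Place K F)) :
    ∃ f : F, f ≠ 0 ∧ P.ord f = 1 ∧ ∀ R ∈ s, R ≠ P → R.ord f = 0 := by
  classical
  obtain ⟨π, hπ0, hπ⟩ := FF.exists_uniformizer P
  obtain ⟨z, hz⟩ := FF.weak_approx (insert P s) (fun R => if R = P then π else 1)
    (fun R => if R = P then -2 else -1)
  have hP := hz P (Finset.mem_insert_self _ _)
  rw [if_pos rfl, if_pos rfl] at hP
  have h1 : P.ord z = 1 := by
    rcases (P.adicValuation_le_exp_iff).mp hP with h | h
    · rw [sub_eq_zero.mp h, hπ]
    · have h0 : z - π ≠ 0 := by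
        intro h0
        rw [h0] at h
        simp at h
      have := (FF.ord_add_eq_of_lt P hπ0 h0 (by omega)).2
      rw [add_sub_cancel] at this
      rw [this, hπ]
  refine ⟨z, ?_, h1, fun R hR hRP => ?_⟩
  · rintro rfl
    simp at h1
  · have h2 := hz R (Finset.mem_insert_of_mem hR)
    rw [if_neg hRP, if_neg hRP] at h2
    rcases (R.adicValuation_le_exp_iff).mp h2 with h | h
    · rw [sub_eq_zero.mp h, R.ord_one]
    · have h0 : z - 1 ≠ 0 := by
        intro h0
        rw [h0] at h
        simp at h
      have := (FF.ord_add_eq_of_lt R one_ne_zero h0 (by rw [R.ord_one]; omega)).2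
      rw [add_sub_cancel] at this
      rw [this, R.ord_one]

/-- **The principle**: an additive map of divisors with finite rows which kills principal divisors
vanishes. -/
theorem eq_zero_of_principal [HasPrincipalDivisors K F] {T : Divisor K F →+ Divisor K' F'}
    (hT : FiniteRows T) (h : ∀ f : F, f ≠ 0 → T (div f) = 0) : T = 0 := by
  classical
  apply Finsupp.addHom_ext
  intro P n
  rw [map_single', AddMonoidHom.zero_apply]
  suffices hs : T (Finsupp.single P 1) = 0 by rw [hs, smul_zero]
  ext Q
  rw [Finsupp.zero_apply]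
  obtain ⟨f, hf0, hfP, hf⟩ := exists_ord_eq P (hT Q).toFinset
  have h1 := DFunLike.congr_fun (h f hf0) Q
  rw [map_eq_sum, Finsupp.zero_apply] at h1
  have h2 : ∑ R ∈ (div f : Divisor K F).support, (div f : Divisor K F) R * T (Finsupp.single R 1) Q
      = (div f : Divisor K F) P * T (Finsupp.single P 1) Q := by
    refine Finset.sum_eq_single P (fun R _ hRP => ?_) (fun hP => ?_)
    · by_cases hR : T (Finsupp.single R 1) Q = 0
      · rw [hR, mul_zero]
      · rw [div_apply, hf R (by simpa using hR) hRP, zero_mul]
    · rw [Finsupp.notMem_support_iff.mp hP, zero_mul]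
  rw [h2, div_apply, hfP, one_mul] at h1
  exact h1

theorem eq_of_principal [HasPrincipalDivisors K F] {T S : Divisor K F →+ Divisor K' F'}
    (hT : FiniteRows T) (hS : FiniteRows S) (h : ∀ f : F, f ≠ 0 → T (div f) = S (div f)) :
    T = S := by
  have := eq_zero_of_principal (hT.sub hS) fun f hf => by
    rw [AddMonoidHom.sub_apply, h f hf, sub_self]
  exact sub_eq_zero.mp this

end Rows

section Along

variable {K F F' : Type*} [Field K] [Field F] [Field F'] [Algebra K F] [Algebra K F']

theorem finiteRows_pullbackAlong [HasPrincipalDivisors K F'] (φ : F →ₐ[K] F')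
    (hφ : φ.toRingHom.IsIntegral) : FiniteRows (Divisor.pullbackAlong φ hφ) := by
  classical
  intro W
  refine (Set.finite_singleton (W.restrictAlong φ hφ)).subset fun R hR => ?_
  rw [Set.mem_ofPred_eq, Divisor.pullbackAlong_apply] at hR
  have := right_ne_zero_of_mul hR
  rw [Finsupp.single_apply] at this
  by_contra hne
  exact this (if_neg fun h => hne h)

theorem finiteRows_pushforwardAlong [HasPrincipalDivisors K F'] (φ : F →ₐ[K] F')
    (hφ : φ.toRingHom.IsIntegral) : FiniteRows (Divisor.pushforwardAlong φ hφ) := by
  classical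
  intro Q
  refine ((Place.fiberAlong φ hφ Q).finite_toSet).subset fun R hR => ?_
  rw [Set.mem_ofPred_eq, Divisor.pushforwardAlong_single, Finsupp.single_apply] at hR
  rw [Finset.mem_coe, Place.mem_fiberAlong]
  by_contra hne
  exact hR (if_neg fun h => hne h)

theorem finiteRows_correspondence [HasPrincipalDivisors K F'] (φ ψ : F →ₐ[K] F')
    (hφ : φ.toRingHom.IsIntegral) (hψ : ψ.toRingHom.IsIntegral) :
    FiniteRows (Divisor.correspondence φ ψ hφ hψ) :=
  (finiteRows_pushforwardAlong ψ hψ).comp (finiteRows_pullbackAlong φ hφ)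

/-- The action of a semilinear automorphism, as an additive map. -/
def smulHom (g : SemilinearAut K F) : Divisor K F →+ Divisor K F :=
  DistribSMul.toAddMonoidHom (Divisor K F) g

theorem smulHom_apply (g : SemilinearAut K F) (D : Divisor K F) : smulHom g D = g • D := rfl

theorem finiteRows_smulHom (g : SemilinearAut K F) : FiniteRows (smulHom g) := by
  classical
  intro Q
  refine (Set.finite_singleton (g⁻¹ • Q)).subset fun R hR => ?_
  rw [Set.mem_ofPred_eq, smulHom_apply, SemilinearAut.smul_single, Finsupp.single_apply] at hR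
  by_contra hne
  refine hR (if_neg fun h => hne ?_)
  rw [Set.mem_singleton_iff, ← h, inv_smul_smul]

theorem smul_div [HasPrincipalDivisors K F] (g : SemilinearAut K F) (f : F) :
    g • (div f : Divisor K F) = div (g • f) := by
  ext v
  rw [SemilinearAut.divisor_smul_apply, div_apply, div_apply, ← SemilinearAut.ord_smul g,
    smul_inv_smul]

end Along

end Fermat.Agent.HeckeComm
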