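import Mathlib
import Fermat.Prelude.Def_AlgebraicCurve_Correspondence
import Fermat.Agent.TEll.Along

/-! Functoriality of the norm along a homomorphism (helper87). -/

set_option autoImplicit false
set_option linter.style.haveILetI false

noncomputable section

open AlgebraicCurve Fermat.Agent.TEll
open scoped TensorProduct

namespace Fermat.Agent.HeckeComm

section Abstract

variable {E E' G G' : Type*} [Field E] [Field E'] [Field G] [Field G'] [Algebra E E']
  [Algebra G G'] [FiniteDimensional E E'] [FiniteDimensional G G']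

/-- **Base change of the norm.** -/
theorem norm_baseChange (ψ : E →+* G) (ψ' : E' →+* G')
    (h : ∀ x, ψ' (algebraMap E E' x) = algebraMap G G' (ψ x))
    (hdeg : Module.finrank G G' = Module.finrank E E')
    (hgen : ∀ S : Subfield G', (algebraMap G G').fieldRange ≤ S → ψ'.fieldRange ≤ S → S = ⊤)
    (x : E') : ψ (Algebra.norm E x) = Algebra.norm G (ψ' x) := by
  let _ : Algebra E G := ψ.toAlgebra
  let _ : Algebra E G' := ((algebraMap G G').comp ψ).toAlgebra
  have : IsScalarTower E G G' := IsScalarTower.of_algebraMap_eq fun _ => rfl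
  let I : E' →ₐ[E] G' := { ψ' with commutes' := h }
  let Φ : G ⊗[E] E' →ₐ[G] G' := Algebra.TensorProduct.lift (Algebra.ofId G G') I
    (fun _ _ => mul_comm _ _)
  have hΦ : ∀ (c : G) (y : E'), Φ (c ⊗ₜ y) = algebraMap G G' c * ψ' y := fun c y =>
    Algebra.TensorProduct.lift_tmul (Algebra.ofId G G') I (fun _ _ => mul_comm _ _) c y
  have hsurj : Function.Surjective Φ := by
    have hint : ∀ y : G', IsIntegral G y := fun y => Algebra.IsIntegral.isIntegral y
    let S : IntermediateField G G' :=
      { Φ.range with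
        inv_mem' := fun y hy => by
          have h1 : y⁻¹ ∈ Algebra.adjoin G {y} :=
            (hint y).inv_mem (Algebra.self_mem_adjoin_singleton G y)
          exact (Algebra.adjoin_le (Set.singleton_subset_iff.mpr hy)) h1 }
    have h1 : S.toSubfield = ⊤ := by
      refine hgen _ ?_ ?_
      · rintro _ ⟨c, rfl⟩
        exact ⟨c ⊗ₜ 1, (hΦ c 1).trans (by rw [map_one, mul_one])⟩
      · rintro _ ⟨y, rfl⟩
        exact ⟨1 ⊗ₜ y, (hΦ 1 y).trans (by rw [map_one, one_mul])⟩
    intro y
    have h2 : y ∈ S.toSubfield := by rw [h1]; trivial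
    exact h2
  have hfin : Module.finrank G (G ⊗[E] E') = Module.finrank G G' := by
    rw [Module.finrank_baseChange, hdeg]
  have hinj : Function.Injective Φ :=
    (LinearMap.injective_iff_surjective_of_finrank_eq_finrank (f := Φ.toLinearMap) hfin).mpr hsurj
  let e : G ⊗[E] E' ≃ₐ[G] G' := AlgEquiv.ofBijective Φ ⟨hinj, hsurj⟩
  have h3 : Algebra.norm G (e (1 ⊗ₜ x)) = Algebra.norm G ((1 : G) ⊗ₜ[E] x) :=
    Algebra.norm_eq_of_algEquiv e _
  have h4 : Algebra.norm G ((1 : G) ⊗ₜ[E] x) = algebraMap E G (Algebra.norm E x) := by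
    rw [Algebra.norm_apply, Algebra.norm_apply, ← LinearMap.det_baseChange]
    congr 1
    ext y
    simp
  have h5 : e (1 ⊗ₜ x) = ψ' x := by
    show Φ (1 ⊗ₜ x) = _
    rw [hΦ, map_one, one_mul]
  rw [← h5, h3, h4]
  rfl

end Abstract

section Along

variable {K F F' F'' G G' : Type*} [Field K] [Field F] [Field F'] [Field F''] [Field G] [Field G']
  [Algebra K F] [Algebra K F'] [Algebra K F''] [Algebra K G] [Algebra K G']

theorem normAlong_baseChange (φ : F →ₐ[K] F') (φ' : G →ₐ[K] G') (ψ : F →ₐ[K] G)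
    (ψ' : F' →ₐ[K] G') (h : ∀ x, ψ' (φ x) = φ' (ψ x)) (hφ : FiniteAlong K φ)
    (hφ' : FiniteAlong K φ') (hdeg : finrankAlong K φ' = finrankAlong K φ)
    (hgen : ∀ S : IntermediateField K G', φ'.fieldRange ≤ S → ψ'.fieldRange ≤ S → S = ⊤)
    (x : F') : ψ (normAlong φ x) = normAlong φ' (ψ' x) := by
  let _ := algebraAlong φ
  let _ := algebraAlong φ'
  have : Module.Finite F F' := hφ
  have : Module.Finite G G' := hφ'
  refine norm_baseChange (E := F) (E' := F') (G := G) (G' := G') ψ.toRingHom ψ'.toRingHom h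
    hdeg (fun S h1 h2 => ?_) x
  let S' : IntermediateField K G' :=
    { S with
      algebraMap_mem' := fun c => h1 ⟨algebraMap K G c, φ'.commutes c⟩ }
  have h3 : S' = ⊤ := by
    refine hgen S' ?_ ?_
    · rintro _ ⟨y, rfl⟩
      exact h1 ⟨y, rfl⟩
    · rintro _ ⟨y, rfl⟩
      exact h2 ⟨y, rfl⟩
  rw [eq_top_iff]
  intro y _
  have : y ∈ S' := by rw [h3]; trivial
  exact this

theorem normAlong_comp (φ : F →ₐ[K] F') (φ' : F' →ₐ[K] F'') (hφ : FiniteAlong K φ)
    (hφ' : FiniteAlong K φ') (x : F'') :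
    normAlong (φ'.comp φ) x = normAlong φ (normAlong φ' x) := by
  let _ := algebraAlong φ
  let _ := algebraAlong φ'
  let _ := algebraAlong (φ'.comp φ)
  have : IsScalarTower F F' F'' := IsScalarTower.of_algebraMap_eq fun _ => rfl
  have : Module.Finite F F' := hφ
  have : Module.Finite F' F'' := hφ'
  exact (Algebra.norm_norm (R := F) (S := F') (A := F'')).symm

theorem normAlong_equiv (φ : F →ₐ[K] F') (φ' : F →ₐ[K] F'') (e : F' ≃ₐ[K] F'')
    (h : ∀ x, e (φ x) = φ' x) (x : F') : normAlong φ' (e x) = normAlong φ x := by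
  let _ := algebraAlong φ
  let _ := algebraAlong φ'
  let e' : F' ≃ₐ[F] F'' := { e with commutes' := h }
  exact Algebra.norm_eq_of_algEquiv e' x

/-- The norm commutes with intertwining semilinear automorphisms. -/
theorem normAlong_smul (φ : F →ₐ[K] F') (g : SemilinearAut K F) (g' : SemilinearAut K F')
    (h : SemilinearAut.IntertwinesAlong (φ : F →+* F') g g') (x : F') :
    normAlong φ (g' • x) = g • normAlong φ x := by
  let _ := algebraAlong φ
  have h1 := Algebra.norm_eq_of_equiv_equiv (A₁ := F) (B₁ := F') (A₂ := F) (B₂ := F')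
    (SemilinearAut.toRingAut g) (SemilinearAut.toRingAut g')
    (RingHom.ext fun y => (h y).symm) x
  show Algebra.norm F (SemilinearAut.toRingAut g' x) =
    SemilinearAut.toRingAut g (Algebra.norm F x)
  rw [h1, RingEquiv.apply_symm_apply]

end Along

end Fermat.Agent.HeckeComm
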