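import Mathlib
import Fermat.Agent.TEll.HeckeDiv
import Fermat.Agent.HeckeComm.Rows
import Fermat.Agent.HeckeComm.Norm

/-! The Galois action commutes with the Hecke operators of `J₀(N)(ℚ̄)` (helper87). -/

set_option autoImplicit false
set_option linter.style.haveILetI false

noncomputable section

open HahnSeries ModularCurve AlgebraicCurve Fermat.Agent.RR Fermat.Agent.TEll

namespace Fermat.Agent.HeckeComm

section Along

variable {K F F' : Type*} [Field K] [Field F] [Field F'] [Algebra K F] [Algebra K F']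

theorem pullbackAlong_div [HasPrincipalDivisors K F] [HasPrincipalDivisors K F']
    (φ : F →ₐ[K] F') (hφ : φ.toRingHom.IsIntegral) (f : F) :
    Divisor.pullbackAlong φ hφ (div f) = div (φ f) := by
  ext w
  rw [div_apply, pullbackAlong_eq_ord φ hφ (f := f) (fun v => div_apply f v)]

theorem pushforwardAlong_div [HasPrincipalDivisors K F] [HasPrincipalDivisors K F']
    (φ : F →ₐ[K] F') (hφ : φ.toRingHom.IsIntegral) (hfin : FiniteAlong K φ)
    (hN : NormFormulaAlong K φ hfin) {f : F'} (hf : f ≠ 0) :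
    Divisor.pushforwardAlong φ hφ (div f) = div (normAlong φ f) := by
  ext v
  rw [div_apply, pushforwardAlong_eq_ord φ hφ hfin hN hf (fun v => div_apply f v)]

variable [HasPrincipalDivisors K F] [HasPrincipalDivisors K F']

theorem pullbackAlong_smul (φ : F →ₐ[K] F') (hφ : φ.toRingHom.IsIntegral)
    (g : SemilinearAut K F) (g' : SemilinearAut K F')
    (h : SemilinearAut.IntertwinesAlong (φ : F →+* F') g g') (D : Divisor K F) :
    Divisor.pullbackAlong φ hφ (g • D) = g' • Divisor.pullbackAlong φ hφ D := by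
  have h1 : (Divisor.pullbackAlong φ hφ).comp (smulHom g) =
      (smulHom g').comp (Divisor.pullbackAlong φ hφ) := by
    refine eq_of_principal ((finiteRows_pullbackAlong φ hφ).comp (finiteRows_smulHom g))
      ((finiteRows_smulHom g').comp (finiteRows_pullbackAlong φ hφ)) fun f hf => ?_
    rw [AddMonoidHom.comp_apply, AddMonoidHom.comp_apply, smulHom_apply, smulHom_apply, smul_div,
      pullbackAlong_div, pullbackAlong_div, smul_div]
    exact congrArg _ (h f).symm
  exact DFunLike.congr_fun h1 D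

theorem pushforwardAlong_smul (φ : F →ₐ[K] F') (hφ : φ.toRingHom.IsIntegral)
    (hfin : FiniteAlong K φ) (hN : NormFormulaAlong K φ hfin)
    (g : SemilinearAut K F) (g' : SemilinearAut K F')
    (h : SemilinearAut.IntertwinesAlong (φ : F →+* F') g g') (D : Divisor K F') :
    Divisor.pushforwardAlong φ hφ (g' • D) = g • Divisor.pushforwardAlong φ hφ D := by
  have h1 : (Divisor.pushforwardAlong φ hφ).comp (smulHom g') =
      (smulHom g).comp (Divisor.pushforwardAlong φ hφ) := by
    refine eq_of_principal ((finiteRows_pushforwardAlong φ hφ).comp (finiteRows_smulHom g'))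
      ((finiteRows_smulHom g).comp (finiteRows_pushforwardAlong φ hφ)) fun f hf => ?_
    have hf' : g' • f ≠ 0 := by rwa [Ne, smul_eq_zero_iff_eq]
    rw [AddMonoidHom.comp_apply, AddMonoidHom.comp_apply, smulHom_apply, smulHom_apply, smul_div,
      pushforwardAlong_div φ hφ hfin hN hf, pushforwardAlong_div φ hφ hfin hN hf', smul_div,
      normAlong_smul φ g g' h]
  exact DFunLike.congr_fun h1 D

theorem correspondence_smul (φ ψ : F →ₐ[K] F') (hφ : φ.toRingHom.IsIntegral)
    (hψ : ψ.toRingHom.IsIntegral) (hfin : FiniteAlong K ψ) (hN : NormFormulaAlong K ψ hfin)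
    (g : SemilinearAut K F) (g' : SemilinearAut K F')
    (h : SemilinearAut.IntertwinesAlong (φ : F →+* F') g g')
    (h' : SemilinearAut.IntertwinesAlong (ψ : F →+* F') g g') (D : Divisor K F) :
    Divisor.correspondence φ ψ hφ hψ (g • D) = g • Divisor.correspondence φ ψ hφ hψ D := by
  rw [Divisor.correspondence_apply, Divisor.correspondence_apply, pullbackAlong_smul φ hφ g g' h,
    pushforwardAlong_smul ψ hψ hfin hN g g' h']

end Along

section Hecke

theorem coeffMap_qExpand'' {R S : Type*} [CommRing R] [CommRing S] (f : R →+* S) (n : ℕ)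
    [NeZero n] (x : LaurentSeries R) : coeffMap f (qExpand R n x) = qExpand S n (coeffMap f x) := by
  ext k
  by_cases hk : (n : ℤ) ∣ k
  · obtain ⟨m, rfl⟩ := hk
    rw [coeffMap_coeff, qExpand_coeff_mul, qExpand_coeff_mul, coeffMap_coeff]
  · rw [coeffMap_coeff, qExpand_coeff_of_not_dvd n _ hk, qExpand_coeff_of_not_dvd n _ hk,
      map_zero]

variable (N ℓ : ℕ) [NeZero N] [NeZero ℓ]

theorem intertwines_alpha {L : Type*} [Field L] [Algebra ℚ L] (σ : L ≃ₐ[ℚ] L) :
    SemilinearAut.IntertwinesAlong (heckeAlphaBar L N ℓ : _ →+* _)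
      (arithmeticGalois (modularFunctionFieldFull N) σ)
      (arithmeticGalois (modularFunctionFieldFull (N * ℓ)) σ) := by
  intro x
  apply Subtype.ext
  rw [coe_arithmeticGalois_smul]
  exact (congrArg (coeffMap (σ : L →+* L)) (coe_heckeAlphaBar N ℓ x)).trans
    (coe_heckeAlphaBar N ℓ (arithmeticGalois (modularFunctionFieldFull N) σ • x)).symm

theorem intertwines_beta {L : Type*} [Field L] [Algebra ℚ L] (σ : L ≃ₐ[ℚ] L) :
    SemilinearAut.IntertwinesAlong (heckeBetaBar L N ℓ : _ →+* _)
      (arithmeticGalois (modularFunctionFieldFull N) σ)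
      (arithmeticGalois (modularFunctionFieldFull (N * ℓ)) σ) := by
  intro x
  apply Subtype.ext
  rw [coe_arithmeticGalois_smul]
  show coeffMap (σ : L →+* L) (qExpand L ℓ (x : LaurentSeries L)) =
    qExpand L ℓ (coeffMap (σ : L →+* L) (x : LaurentSeries L))
  exact coeffMap_qExpand'' _ _ _

/-- The Galois action commutes with the Hecke correspondence on divisors. -/
theorem heckeDiv_smul (σ : AlgebraicClosure ℚ ≃ₐ[ℚ] AlgebraicClosure ℚ)
    (D : Divisor (AlgebraicClosure ℚ) (modularFunctionFieldBar N)) :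
    heckeDiv N ℓ (arithmeticGalois (modularFunctionFieldFull N) σ • D) =
      arithmeticGalois (modularFunctionFieldFull N) σ • heckeDiv N ℓ D :=
  correspondence_smul _ _ (intBeta N ℓ) (intAlpha N ℓ) (finAlpha N ℓ) (nfAlpha N ℓ) _
    (arithmeticGalois (modularFunctionFieldFull (N * ℓ)) σ) (intertwines_beta N ℓ σ)
    (intertwines_alpha N ℓ σ) D

/-- **Galois commutes with the Hecke operators**, for every level and index. -/
theorem heckeOperatorAlong_smul (σ : AlgebraicClosure ℚ ≃ₐ[ℚ] AlgebraicClosure ℚ) (x : JZero N) :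
    heckeOperatorAlong (AlgebraicClosure ℚ) N ℓ (σ • x) =
      σ • heckeOperatorAlong (AlgebraicClosure ℚ) N ℓ x := by
  obtain ⟨D, rfl⟩ := Pic0.mk_surjective x
  rw [galois_smul_pic0_def, galois_smul_pic0_def, SemilinearAut.pic0_smul_mk]
  obtain ⟨D₁, h1, h1'⟩ := heckeOperatorAlong_mk (N := N) (ℓ := ℓ)
    (SemilinearAut.degZeroSMulHom (arithmeticGalois (modularFunctionFieldFull N) σ) D)
  obtain ⟨D₂, h2, h2'⟩ := heckeOperatorAlong_mk (N := N) (ℓ := ℓ) D
  rw [h1', h2', SemilinearAut.pic0_smul_mk]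
  refine congrArg Pic0.mk (Subtype.ext ?_)
  rw [h1, SemilinearAut.coe_degZeroSMulHom, SemilinearAut.coe_degZeroSMulHom, h2, heckeDiv_smul]

variable {N}

theorem heckeOperatorBar_smul (ℓ : Nat.Primes)
    (σ : AlgebraicClosure ℚ ≃ₐ[ℚ] AlgebraicClosure ℚ) (x : JZero N) :
    heckeOperatorBar N ℓ (σ • x) = σ • heckeOperatorBar N ℓ x := by
  have : NeZero (ℓ : ℕ) := ⟨ℓ.2.ne_zero⟩
  exact heckeOperatorAlong_smul N ℓ σ x

end Hecke

end Fermat.Agent.HeckeComm
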