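import Mathlib
import Fermat.Agent.ModFun.Rep
import Fermat.Agent.HeckeComm.Galois

/-! The Hecke operators of `J₀(N)(ℚ̄)` commute, for all pairs of primes (helper87). -/

set_option autoImplicit false
set_option linter.style.haveILetI false

noncomputable section

open HahnSeries ModularCurve AlgebraicCurve IntermediateField Fermat.Agent.RR Fermat.Agent.TEll
  Fermat.Agent.X0Emb

namespace Fermat.Agent.HeckeComm

/-! ### Numerics -/

theorem exists_dedekindPsi_ratio (M ℓ : ℕ) (hM : M ≠ 0) (hℓ : ℓ.Prime) :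
    dedekindPsi (M * ℓ) * dedekindPsi (ℓ ^ M.factorization ℓ) =
      dedekindPsi M * dedekindPsi (ℓ ^ (M.factorization ℓ + 1)) := by
  obtain ⟨m, hm, hcop⟩ : ∃ m, M = ℓ ^ M.factorization ℓ * m ∧ Nat.Coprime ℓ m :=
    ⟨_, (Nat.ordProj_mul_ordCompl_eq_self M ℓ).symm, Nat.coprime_ordCompl hℓ hM⟩
  set a := M.factorization ℓ with ha
  have h1 : dedekindPsi M = dedekindPsi (ℓ ^ a) * dedekindPsi m := by
    conv_lhs => rw [hm]
    exact P1Count.dedekindPsi_mul _ _ (Nat.Coprime.pow_left a hcop)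
  have h2 : dedekindPsi (M * ℓ) = dedekindPsi (ℓ ^ (a + 1)) * dedekindPsi m := by
    have : M * ℓ = ℓ ^ (a + 1) * m := by
      conv_lhs => rw [hm]
      ring
    rw [this]
    exact P1Count.dedekindPsi_mul _ _ (Nat.Coprime.pow_left (a + 1) hcop)
  rw [h1, h2]
  ring

theorem dedekindPsi_pow_pos (ℓ k : ℕ) (hℓ : ℓ.Prime) : 0 < dedekindPsi (ℓ ^ k) := by
  have : NeZero (ℓ ^ k) := ⟨pow_ne_zero _ hℓ.ne_zero⟩
  exact dedekindPsi_pos _

/-- The degree of `X₀(Nℓ) → X₀(N)` only depends on the power of `ℓ` dividing `N`. -/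
theorem finrankAlong_alpha_eq (N ℓ ℓ' : ℕ) [NeZero N] [NeZero ℓ] [NeZero ℓ'] (hℓ : ℓ.Prime)
    (hℓ' : ¬ ℓ ∣ ℓ') :
    finrankAlong (AlgebraicClosure ℚ) (heckeAlphaBar (AlgebraicClosure ℚ) (N * ℓ') ℓ) =
      finrankAlong (AlgebraicClosure ℚ) (heckeAlphaBar (AlgebraicClosure ℚ) N ℓ) := by
  have key : ∀ (M : ℕ) [NeZero M],
      finrankAlong (AlgebraicClosure ℚ) (heckeAlphaBar (AlgebraicClosure ℚ) M ℓ) *
        dedekindPsi (ℓ ^ M.factorization ℓ) = dedekindPsi (ℓ ^ (M.factorization ℓ + 1)) := by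
    intro M _
    have h1 := dedekindPsi_mul_finrankAlong M ℓ
    have h2 := exists_dedekindPsi_ratio M ℓ (NeZero.ne M) hℓ
    rw [← h1, mul_assoc] at h2
    exact Nat.eq_of_mul_eq_mul_left (dedekindPsi_pos M) h2
  have h1 := key (N * ℓ')
  have h2 := key N
  have h3 : (N * ℓ').factorization ℓ = N.factorization ℓ := by
    rw [Nat.factorization_mul (NeZero.ne N) (NeZero.ne ℓ'), Finsupp.add_apply,
      Nat.factorization_eq_zero_of_not_dvd hℓ', add_zero]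
  rw [h3, ← h2] at h1
  exact Nat.eq_of_mul_eq_mul_right (dedekindPsi_pow_pos ℓ _ hℓ) h1

/-! ### Generation by `j` and `j_N` -/

/-- The function `j(q^M)` of level `M`. -/
def jM (M : ℕ) [NeZero M] : modularFunctionFieldBar M :=
  ⟨coeffEmb (AlgebraicClosure ℚ) (qExpand ℚ M jq),
    coeffEmb_mem_laurentBaseChange _ (jqd_mem_full M dvd_rfl)⟩

theorem coe_jM (M : ℕ) [NeZero M] : (jM M : LaurentSeries (AlgebraicClosure ℚ)) =
    qExpand (AlgebraicClosure ℚ) M (jqModC (AlgebraicClosure ℚ)) :=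
  coeffEmb_qExpand_jq (AlgebraicClosure ℚ) M

theorem full_eq (M : ℕ) [NeZero M] : modularFunctionFieldFull M = adjoin ℚ {jq, qExpand ℚ M jq} := by
  apply le_antisymm
  · rw [modularFunctionFieldFull, adjoin_le_iff]
    rintro x ⟨d, hne, hd, rfl⟩
    exact Fermat.Agent.ModFun.functionFieldGeneration M d hd hne
  · exact modularFunctionField_le_full M

theorem eq_top_of_mem (M : ℕ) [NeZero M]
    (S : IntermediateField (AlgebraicClosure ℚ) (modularFunctionFieldBar M))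
    (h1 : jF M ∈ S) (h2 : jM M ∈ S) : S = ⊤ := by
  have h3 : modularFunctionFieldBar M ≤ IntermediateField.lift S := by
    have : modularFunctionFieldBar M = adjoin (AlgebraicClosure ℚ)
        (⇑(coeffEmb (AlgebraicClosure ℚ)) '' {jq, qExpand ℚ M jq}) := by
      rw [← laurentBaseChange_adjoin, ← full_eq]
    refine this.le.trans (adjoin_le_iff.mpr ?_)
    rintro _ ⟨y, hy, rfl⟩
    rcases hy with rfl | hy
    · refine (IntermediateField.mem_lift (jF M)).mpr h1 |> fun h => ?_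
      have h4 : coeffEmb (AlgebraicClosure ℚ) jq = (jF M : LaurentSeries (AlgebraicClosure ℚ)) := by
        rw [coe_jF]
        have := coeffEmb_qExpand_jq (AlgebraicClosure ℚ) 1
        rwa [qExpand_one_apply, qExpand_one_apply] at this
      rw [h4]
      exact h
    · rw [Set.mem_singleton_iff] at hy
      subst hy
      exact (IntermediateField.mem_lift (jM M)).mpr h2
  rw [eq_top_iff]
  intro y _
  exact (IntermediateField.mem_lift y).mp (h3 y.2)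

/-! ### The square -/

section Square

variable (N ℓ ℓ' : ℕ) [NeZero N] [NeZero ℓ] [NeZero ℓ']

omit [NeZero N] [NeZero ℓ] [NeZero ℓ'] in
theorem coe_equivOfEq {K L : Type*} [Field K] [Field L] [Algebra K L]
    {S T : IntermediateField K L} (h : S = T) (x : S) :
    (IntermediateField.equivOfEq h x : L) = x := by
  subst h
  rfl

omit [NeZero N] [NeZero ℓ] [NeZero ℓ'] in
theorem swapLevel_eq : modularFunctionFieldBar (N * ℓ * ℓ') = modularFunctionFieldBar (N * ℓ' * ℓ) := by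
  rw [mul_right_comm]

/-- `X₀(Nℓℓ') = X₀(Nℓ'ℓ)`. -/
def swapLevel : modularFunctionFieldBar (N * ℓ * ℓ') ≃ₐ[AlgebraicClosure ℚ]
    modularFunctionFieldBar (N * ℓ' * ℓ) :=
  IntermediateField.equivOfEq (swapLevel_eq N ℓ ℓ')

omit [NeZero N] [NeZero ℓ] [NeZero ℓ'] in
theorem coe_swapLevel (x : modularFunctionFieldBar (N * ℓ * ℓ')) :
    (swapLevel N ℓ ℓ' x : LaurentSeries (AlgebraicClosure ℚ)) = x :=
  coe_equivOfEq (swapLevel_eq N ℓ ℓ') x

/-- `f(q) ↦ f(q^ℓ')` from level `Nℓ` to level `Nℓ'ℓ`. -/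
def beta' : modularFunctionFieldBar (N * ℓ) →ₐ[AlgebraicClosure ℚ]
    modularFunctionFieldBar (N * ℓ' * ℓ) :=
  (swapLevel N ℓ ℓ' : _ →ₐ[AlgebraicClosure ℚ] _).comp
    (heckeBetaBar (AlgebraicClosure ℚ) (N * ℓ) ℓ')

omit [NeZero N] [NeZero ℓ] in
theorem coe_beta' (x : modularFunctionFieldBar (N * ℓ)) :
    (beta' N ℓ ℓ' x : LaurentSeries (AlgebraicClosure ℚ)) =
      qExpand (AlgebraicClosure ℚ) ℓ' (x : LaurentSeries (AlgebraicClosure ℚ)) :=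
  (coe_swapLevel N ℓ ℓ' _).trans (coe_heckeBetaBar (N * ℓ) ℓ' x)

theorem square (x : modularFunctionFieldBar N) :
    beta' N ℓ ℓ' (heckeAlphaBar (AlgebraicClosure ℚ) N ℓ x) =
      heckeAlphaBar (AlgebraicClosure ℚ) (N * ℓ') ℓ (heckeBetaBar (AlgebraicClosure ℚ) N ℓ' x) :=
  Subtype.ext (by rw [coe_beta', coe_heckeAlphaBar, coe_heckeAlphaBar, coe_heckeBetaBar])

theorem qExpand_qExpand_jqModC (m n k : ℕ) [NeZero m] [NeZero n] [NeZero k] (h : k = n * m)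
    (x : LaurentSeries (AlgebraicClosure ℚ)) :
    qExpand (AlgebraicClosure ℚ) m (qExpand (AlgebraicClosure ℚ) n x) =
      qExpand (AlgebraicClosure ℚ) k x := by
  subst h
  ext i
  by_cases h1 : (m : ℤ) ∣ i
  · obtain ⟨j, rfl⟩ := h1
    rw [qExpand_coeff_mul]
    by_cases h2 : (n : ℤ) ∣ j
    · obtain ⟨r, rfl⟩ := h2
      rw [qExpand_coeff_mul, show (m : ℤ) * (n * r) = ((n * m : ℕ) : ℤ) * r by push_cast; ring,
        qExpand_coeff_mul]
    · rw [qExpand_coeff_of_not_dvd n _ h2, qExpand_coeff_of_not_dvd]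
      rintro ⟨r, hr⟩
      apply h2
      refine ⟨r, ?_⟩
      have hm : (m : ℤ) ≠ 0 := by exact_mod_cast NeZero.ne m
      apply mul_left_cancel₀ hm
      rw [hr]
      push_cast
      ring
  · rw [qExpand_coeff_of_not_dvd m _ h1, qExpand_coeff_of_not_dvd]
    rintro ⟨r, hr⟩
    apply h1
    refine ⟨n * r, ?_⟩
    rw [hr]
    push_cast
    ring

/-- The norm commutes with `q ↦ q^ℓ'`. -/
theorem beta_normAlong (hℓ : ℓ.Prime) (hℓ' : ¬ ℓ ∣ ℓ') (x : modularFunctionFieldBar (N * ℓ)) :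
    heckeBetaBar (AlgebraicClosure ℚ) N ℓ'
        (normAlong (heckeAlphaBar (AlgebraicClosure ℚ) N ℓ) x) =
      normAlong (heckeAlphaBar (AlgebraicClosure ℚ) (N * ℓ') ℓ) (beta' N ℓ ℓ' x) := by
  refine normAlong_baseChange (heckeAlphaBar (AlgebraicClosure ℚ) N ℓ)
    (heckeAlphaBar (AlgebraicClosure ℚ) (N * ℓ') ℓ) (heckeBetaBar (AlgebraicClosure ℚ) N ℓ')
    (beta' N ℓ ℓ') (square N ℓ ℓ') (finAlpha N ℓ) (finAlpha (N * ℓ') ℓ)
    (finrankAlong_alpha_eq N ℓ ℓ' hℓ hℓ') (fun S h1 h2 => ?_) x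
  refine eq_top_of_mem (N * ℓ' * ℓ) S ?_ ?_
  · rw [← alpha_jF0 (N * ℓ') ℓ]
    exact h1 ⟨_, rfl⟩
  · have h3 : jM (N * ℓ' * ℓ) = beta' N ℓ ℓ' (jM (N * ℓ)) := by
      apply Subtype.ext
      rw [coe_beta', coe_jM, coe_jM]
      exact (qExpand_qExpand_jqModC ℓ' (N * ℓ) (N * ℓ' * ℓ) (by ring) _).symm
    rw [h3]
    exact h2 ⟨_, rfl⟩

theorem TEll_TEll (hℓ : ℓ.Prime) (hℓ' : ¬ ℓ ∣ ℓ') (f : modularFunctionFieldBar N) :
    TEll (AlgebraicClosure ℚ) N ℓ' (TEll (AlgebraicClosure ℚ) N ℓ f) =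
      normAlong ((heckeAlphaBar (AlgebraicClosure ℚ) (N * ℓ') ℓ).comp
        (heckeAlphaBar (AlgebraicClosure ℚ) N ℓ'))
        (beta' N ℓ ℓ' (heckeBetaBar (AlgebraicClosure ℚ) N ℓ f)) := by
  rw [normAlong_comp _ _ (finAlpha N ℓ') (finAlpha (N * ℓ') ℓ), TEll_apply, TEll_apply,
    beta_normAlong N ℓ ℓ' hℓ hℓ']

/-- **`T_ℓ T_ℓ' = T_ℓ' T_ℓ`** on functions. -/
theorem TEll_comm (hℓ : ℓ.Prime) (hℓ' : ℓ'.Prime) (hne : ℓ ≠ ℓ') (f : modularFunctionFieldBar N) :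
    TEll (AlgebraicClosure ℚ) N ℓ' (TEll (AlgebraicClosure ℚ) N ℓ f) =
      TEll (AlgebraicClosure ℚ) N ℓ (TEll (AlgebraicClosure ℚ) N ℓ' f) := by
  have h1 : ¬ ℓ ∣ ℓ' := fun h => hne ((Nat.prime_dvd_prime_iff_eq hℓ hℓ').mp h)
  have h2 : ¬ ℓ' ∣ ℓ := fun h => hne ((Nat.prime_dvd_prime_iff_eq hℓ' hℓ).mp h).symm
  rw [TEll_TEll N ℓ ℓ' hℓ h1, TEll_TEll N ℓ' ℓ hℓ' h2]
  have h3 : beta' N ℓ ℓ' (heckeBetaBar (AlgebraicClosure ℚ) N ℓ f) =
      swapLevel N ℓ ℓ' (beta' N ℓ' ℓ (heckeBetaBar (AlgebraicClosure ℚ) N ℓ' f)) := by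
    apply Subtype.ext
    rw [coe_beta', coe_swapLevel, coe_beta', coe_heckeBetaBar, coe_heckeBetaBar,
      qExpand_qExpand_jqModC ℓ' ℓ (ℓ * ℓ') rfl, qExpand_qExpand_jqModC ℓ ℓ' (ℓ * ℓ') (by ring)]
  rw [h3]
  refine normAlong_equiv _ _ (swapLevel N ℓ ℓ') (fun x => Subtype.ext ?_) _
  rw [coe_swapLevel, AlgHom.comp_apply, AlgHom.comp_apply, coe_heckeAlphaBar, coe_heckeAlphaBar,
    coe_heckeAlphaBar, coe_heckeAlphaBar]

theorem heckeDiv_comm (hℓ : ℓ.Prime) (hℓ' : ℓ'.Prime)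
    (D : Divisor (AlgebraicClosure ℚ) (modularFunctionFieldBar N)) :
    heckeDiv N ℓ (heckeDiv N ℓ' D) = heckeDiv N ℓ' (heckeDiv N ℓ D) := by
  rcases eq_or_ne ℓ ℓ' with h | hne
  · subst h
    rfl
  have hrow : ∀ (m : ℕ) [NeZero m], FiniteRows (heckeDiv N m) := fun m _ =>
    finiteRows_correspondence _ _ _ _
  have h1 : (heckeDiv N ℓ).comp (heckeDiv N ℓ') = (heckeDiv N ℓ').comp (heckeDiv N ℓ) := by
    refine eq_of_principal ((hrow ℓ).comp (hrow ℓ')) ((hrow ℓ').comp (hrow ℓ)) fun f hf => ?_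
    rw [AddMonoidHom.comp_apply, AddMonoidHom.comp_apply, heckeDiv_div hf, heckeDiv_div hf,
      heckeDiv_div (TEll_ne_zero _ N ℓ (finAlpha N ℓ) hf), heckeDiv_div (TEll_ne_zero _ N ℓ' (finAlpha N ℓ') hf),
      TEll_comm N ℓ ℓ' hℓ hℓ' hne]
  exact DFunLike.congr_fun h1 D

end Square

/-- **The Hecke operators on `J₀(N)(ℚ̄)` commute.** -/
theorem heckeOperatorsCommuteBar (N : ℕ) [NeZero N] : HeckeOperatorsCommuteBar N := by
  intro ℓ ℓ'
  have : NeZero (ℓ : ℕ) := ⟨ℓ.2.ne_zero⟩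
  have : NeZero (ℓ' : ℕ) := ⟨ℓ'.2.ne_zero⟩
  ext x
  obtain ⟨D, rfl⟩ := Pic0.mk_surjective x
  rw [Module.End.mul_apply, Module.End.mul_apply]
  obtain ⟨D₁, h1, h1'⟩ := heckeOperatorBar_mk ℓ' D
  obtain ⟨D₂, h2, h2'⟩ := heckeOperatorBar_mk ℓ D
  rw [h1', h2']
  obtain ⟨D₃, h3, h3'⟩ := heckeOperatorBar_mk ℓ D₁
  obtain ⟨D₄, h4, h4'⟩ := heckeOperatorBar_mk ℓ' D₂
  rw [h3', h4']
  refine congrArg Pic0.mk (Subtype.ext ?_)
  rw [h3, h4, h1, h2, heckeDiv_comm N ℓ ℓ' ℓ.2 ℓ'.2]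

end Fermat.Agent.HeckeComm
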